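import Mathlib
import Fermat.Agent.ModFun.Embed

/-!
# The valuation at infinity and the action of `τ ↦ τ + 1` on cusp expansions
-/

set_option autoImplicit false

noncomputable section

open UpperHalfPlane hiding I
open Complex MatrixGroups CongruenceSubgroup
open scoped Manifold Real WithZero

namespace Fermat.Agent.Genus

open Fermat.Agent.ModFun

open Classical in
/-- `exp (-order)` on complex Laurent series. -/
def lsValuation : Valuation (LaurentSeries ℂ) ℤᵐ⁰ where
  toFun f := if f = 0 then 0 else WithZero.exp (-HahnSeries.order f)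
  map_zero' := if_pos rfl
  map_one' := by rw [if_neg one_ne_zero, HahnSeries.order_one]; simp
  map_mul' f g := by
    rcases eq_or_ne f 0 with rfl | hf
    · simp
    rcases eq_or_ne g 0 with rfl | hg
    · simp
    rw [if_neg (mul_ne_zero hf hg), if_neg hf, if_neg hg, ← WithZero.exp_add,
      HahnSeries.order_mul hf hg, neg_add]
  map_add_le_max' f g := by
    rcases eq_or_ne f 0 with rfl | hf
    · simp
    rcases eq_or_ne g 0 with rfl | hg
    · simp
    rcases eq_or_ne (f + g) 0 with h | h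
    · rw [h, if_pos rfl]; exact zero_le
    have := HahnSeries.min_order_le_order_add (x := f) (y := g) h
    rw [if_neg hf, if_neg hg, if_neg h, le_max_iff, WithZero.exp_le_exp, WithZero.exp_le_exp]
    omega

lemma lsValuation_apply {f : LaurentSeries ℂ} (hf : f ≠ 0) :
    lsValuation f = WithZero.exp (-HahnSeries.order f) := if_neg hf

lemma neg_log_lsValuation (f : LaurentSeries ℂ) :
    -(WithZero.log (lsValuation f)) = HahnSeries.order f := by
  rcases eq_or_ne f 0 with rfl | hf
  · simp
  · simp [lsValuation_apply hf]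

lemma lsValuation_const {c : ℂ} (hc : c ≠ 0) :
    lsValuation (algebraMap ℂ (LaurentSeries ℂ) c) = 1 := by
  rw [ModularCurve.algebraMap_laurentSeries_eq_single,
    lsValuation_apply (HahnSeries.single_ne_zero hc), HahnSeries.order_single hc]
  simp

lemma order_twist (u : ℂˣ) (f : LaurentSeries ℂ) :
    HahnSeries.order (twist u f) = HahnSeries.order f := by
  rcases eq_or_ne f 0 with rfl | hf
  · rw [map_zero]
  have h : ∀ k, (twist u f).coeff k = 0 ↔ f.coeff k = 0 := fun k => by
    rw [coeff_twist]; exact mul_eq_zero_iff_left (Units.ne_zero _)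
  have hne : twist u f ≠ 0 := fun h0 =>
    HahnSeries.coeff_order_eq_zero.not.mpr hf ((h _).mp (by rw [h0]; rfl))
  apply le_antisymm
  · refine HahnSeries.order_le_of_coeff_ne_zero fun h0 => ?_
    exact HahnSeries.coeff_order_eq_zero.not.mpr hf ((h _).mp h0)
  · refine HahnSeries.order_le_of_coeff_ne_zero fun h0 => ?_
    exact HahnSeries.coeff_order_eq_zero.not.mpr hne ((h _).mpr h0)

lemma lsValuation_twist (u : ℂˣ) (f : LaurentSeries ℂ) :
    lsValuation (twist u f) = lsValuation f := by
  rcases eq_or_ne f 0 with rfl | hf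
  · rw [map_zero]
  have hne : twist u f ≠ 0 := (_root_.map_ne_zero _).mpr hf
  rw [lsValuation_apply hne, lsValuation_apply hf, order_twist]

lemma coeff_twist_iterate (u : ℂˣ) (n : ℕ) (f : LaurentSeries ℂ) (k : ℤ) :
    ((twist u)^[n] f).coeff k = ((u ^ k : ℂˣ) : ℂ) ^ n * f.coeff k := by
  induction n with
  | zero => simp
  | succ n ih => rw [Function.iterate_succ_apply', coeff_twist, ih, pow_succ]; ring

variable (N : ℕ) [NeZero N]

/-- Invariance under a power of the twist forces the order to be divisible. -/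
lemma order_dvd_of_twist_fixed (n : ℕ) (g : LaurentSeries ℂ) (hg : g ≠ 0)
    (hfix : (twist (affineRoot 1 N))^[n] g = g) :
    (N : ℤ) ∣ (n : ℤ) * HahnSeries.order g := by
  have hc := HahnSeries.coeff_order_eq_zero.not.mpr hg
  have h := congrArg (fun x : LaurentSeries ℂ => x.coeff g.order) hfix
  simp only [coeff_twist_iterate] at h
  rw [mul_eq_right₀ hc] at h
  have hprim : IsPrimitiveRoot ((affineRoot 1 N : ℂˣ) : ℂ) N := by
    have := Complex.isPrimitiveRoot_exp N (NeZero.ne N)
    simpa [affineRoot] using this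
  rw [← hprim.zpow_eq_one_iff_dvd, mul_comm, zpow_mul, zpow_natCast]
  simpa using h

lemma qFun_T_smul (τ : ℍ) :
    qFun N (ModularGroup.T • τ) = (affineRoot 1 N : ℂ) * qFun N τ := by
  have hd : (N : ℂ) ≠ 0 := by exact_mod_cast NeZero.ne N
  simp only [qFun, affineRoot, Units.val_mk0, Function.Periodic.qParam, ← Complex.exp_add]
  congr 1
  have e : ((ModularGroup.T • τ : ℍ) : ℂ) = (τ : ℂ) + 1 := by
    rw [UpperHalfPlane.modular_T_smul, UpperHalfPlane.coe_vadd]
    push_cast
    ring
  rw [e]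
  push_cast
  field_simp
  ring

lemma laurentExp_translate (f f' : CuspAlg N)
    (h : ∀ τ : ℍ, (f' : ℍ → ℂ) τ = (f : ℍ → ℂ) (ModularGroup.T • τ)) :
    laurentExp N f' = twist (affineRoot 1 N) (laurentExp N f) := by
  obtain ⟨n, c, hc, he⟩ := exists_hasSum f
  set u := affineRoot 1 N
  have hc' : ∀ τ : ℍ, HasSum (fun m : ℕ => ((u : ℂ) ^ (-(n : ℤ)) * ((u : ℂ) ^ m * c m)) • qFun N τ ^ m)
      (qFun N τ ^ n * (f' : ℍ → ℂ) τ) := by
    intro τ
    have h1 := (hc (ModularGroup.T • τ)).mul_left ((u : ℂ) ^ (-(n : ℤ)))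
    rw [qFun_T_smul, ← h τ, mul_pow, ← mul_assoc, ← mul_assoc, zpow_neg, zpow_natCast,
      inv_mul_cancel₀ (pow_ne_zero n u.ne_zero), one_mul] at h1
    refine h1.congr_fun fun m => ?_
    rw [zpow_neg, zpow_natCast, smul_eq_mul, smul_eq_mul, mul_pow]
    ring
  rw [laurentExp_eq_of_hasSum f' hc', he, map_mul, twist_single, twist_ofPowerSeries_mk, mul_one]
  rw [show HahnSeries.single (-(n : ℤ)) ((u ^ (-(n : ℤ)) : ℂˣ) : ℂ)
      = HahnSeries.single (-(n : ℤ)) (1 : ℂ) * HahnSeries.C (((u ^ (-(n : ℤ)) : ℂˣ) : ℂ)) by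
    rw [HahnSeries.C_apply, HahnSeries.single_mul_single, one_mul, add_zero],
    mul_assoc, ← HahnSeries.ofPowerSeries_C, ← map_mul]
  congr 2
  ext m
  rw [PowerSeries.coeff_C_mul, PowerSeries.coeff_mk, PowerSeries.coeff_mk, Units.val_zpow_eq_zpow_val]

/-- `τ ↦ τ + 1` permutes the cusp embeddings. -/
theorem cuspEmb_T (c : Coset N) (x : FC N) :
    cuspEmb N (ModularGroup.T⁻¹ • c) x = twist (affineRoot 1 N) (cuspEmb N c x) := by
  obtain ⟨a, b, -, rfl⟩ := exists_div_eq x
  have key : ∀ f : Hol N, cuspEmb N (ModularGroup.T⁻¹ • c) (toFC N f)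
      = twist (affineRoot 1 N) (cuspEmb N c (toFC N f)) := by
    intro f
    rw [cuspEmb_toFC, cuspEmb_toFC]
    exact laurentExp_translate N _ _ fun τ => (tr_smul_eq ModularGroup.T c f τ).symm
  rw [map_div₀, map_div₀, map_div₀, key, key]

end Fermat.Agent.Genus
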