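import Mathlib
import Fermat.Agent.ModFun.MerH

/-!
# Invariance under a stabiliser forces divisibility of the order
-/

set_option autoImplicit false

noncomputable section

open UpperHalfPlane hiding I
open Complex Filter Topology MatrixGroups
open scoped Manifold

namespace Fermat.Agent.Genus

open Fermat.Agent.ModFun (HolH MerH actHol actMer ordHol valAt ordMer coe_actHol actMer_algebraMap)

lemma det_coe_SL (γ : SL(2, ℤ)) : ((γ : GL (Fin 2) ℝ) : Matrix (Fin 2) (Fin 2) ℝ).det = 1 := by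
  rw [← Matrix.GeneralLinearGroup.val_det_apply]
  simp

lemma det_coe_SL_pos (γ : SL(2, ℤ)) :
    0 < ((γ : GL (Fin 2) ℝ) : Matrix (Fin 2) (Fin 2) ℝ).det := by
  rw [det_coe_SL]; exact one_pos

lemma actMer_iterate (s : SL(2, ℤ)) (n : ℕ) (f : HolH) :
    (actMer s)^[n] (algebraMap HolH MerH f) = algebraMap HolH MerH (actHol (s ^ n) f) := by
  induction n with
  | zero =>
    have : actHol (s ^ 0) f = f := Subtype.ext (funext fun τ => by simp)
    rw [this]; rfl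
  | succ n ih =>
    rw [Function.iterate_succ_apply', ih, actMer_algebraMap]
    congr 1
    refine Subtype.ext (funext fun τ => ?_)
    simp only [coe_actHol]
    rw [← mul_smul, ← pow_succ]

lemma actHol_comp_ofComplex (s : SL(2, ℤ)) (f : HolH) :
    ((actHol s f : HolH) : ℍ → ℂ) ∘ ofComplex
      = ((f : ℍ → ℂ) ∘ ofComplex) ∘ fun z => (((s : GL (Fin 2) ℝ) • ofComplex z : ℍ) : ℂ) := by
  funext z
  show (f : ℍ → ℂ) (s • ofComplex z) = _
  simp [ofComplex_apply]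

variable {τ₀ : ℍ} {s : SL(2, ℤ)}

lemma denom_pow_fixed (hs : s • τ₀ = τ₀) (n : ℕ) :
    denom (s ^ n : SL(2, ℤ)) τ₀ = denom s τ₀ ^ n := by
  induction n with
  | zero => simp [ModularGroup.denom_apply]
  | succ n ih =>
    rw [pow_succ, pow_succ]
    simp only [map_mul]
    rw [denom_cocycle_σ, show ((s : GL (Fin 2) ℝ) • τ₀) = τ₀ from hs, ← ih]
    simp [σ]

/-- Leading behaviour of `f (s • z)` near a fixed point `τ₀` of `s`. -/
lemma tendsto_actHol_div (hs : s • τ₀ = τ₀) {f : HolH} (hf : f ≠ 0) :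
    ∃ c : ℂ, c ≠ 0 ∧ ∀ n : ℕ, Tendsto
      (fun z : ℂ => ((actHol (s ^ n) f : HolH) : ℍ → ℂ) (ofComplex z)
        / (z - τ₀) ^ analyticOrderNatAt ((f : ℍ → ℂ) ∘ ofComplex) (τ₀ : ℂ))
      (𝓝[≠] (τ₀ : ℂ))
      (𝓝 (((denom s τ₀ ^ n) ^ 2)⁻¹ ^ analyticOrderNatAt ((f : ℍ → ℂ) ∘ ofComplex) (τ₀ : ℂ) * c)) := by
  obtain ⟨u, hu, hu0, hev⟩ :=
    ((ModFun.analyticAt_HolH f τ₀).analyticOrderNatAt_eq_iff (ModFun.analyticOrderAt_HolH_ne_top hf τ₀)).mp rfl
  refine ⟨u τ₀, hu0, fun n => ?_⟩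
  set m := analyticOrderNatAt ((f : ℍ → ℂ) ∘ ofComplex) (τ₀ : ℂ)
  have hn : (s ^ n) • τ₀ = τ₀ := by
    clear hev
    induction n with
    | zero => simp
    | succ k ih => rw [pow_succ, mul_smul, hs, ih]
  set G : ℂ → ℂ := fun z => ((((s ^ n : SL(2, ℤ)) : GL (Fin 2) ℝ) • ofComplex z : ℍ) : ℂ) with hG
  have hG0 : G τ₀ = τ₀ := by
    rw [hG]
    simp only [ofComplex_apply]
    rw [show ((s ^ n : SL(2, ℤ)) : GL (Fin 2) ℝ) • τ₀ = τ₀ from hn]
  have hGd : HasDerivAt G ((denom s τ₀ ^ n) ^ 2)⁻¹ (τ₀ : ℂ) := by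
    have := (τ₀.hasStrictDerivAt_smul (g := ((s ^ n : SL(2, ℤ)) : GL (Fin 2) ℝ))
      (det_coe_SL_pos _)).hasDerivAt
    rw [denom_pow_fixed hs n, det_coe_SL, Complex.ofReal_one, one_div] at this
    exact this
  have hslope := hasDerivAt_iff_tendsto_slope.mp hGd
  have hGc : Tendsto G (𝓝[≠] (τ₀ : ℂ)) (𝓝 (τ₀ : ℂ)) := by
    conv => arg 3; rw [← hG0]
    exact hGd.continuousAt.tendsto.mono_left nhdsWithin_le_nhds
  have key : Tendsto (fun z => slope G τ₀ z ^ m * u (G z)) (𝓝[≠] (τ₀ : ℂ))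
      (𝓝 (((denom s τ₀ ^ n) ^ 2)⁻¹ ^ m * u τ₀)) :=
    (hslope.pow m).mul (hu.continuousAt.tendsto.comp hGc)
  refine key.congr' ?_
  filter_upwards [hGc.eventually hev, self_mem_nhdsWithin] with z hz hzne
  have hz' : z - (τ₀ : ℂ) ≠ 0 := sub_ne_zero.mpr hzne
  have e : ((actHol (s ^ n) f : HolH) : ℍ → ℂ) (ofComplex z)
      = ((f : ℍ → ℂ) ∘ ofComplex) (G z) :=
    congrFun (actHol_comp_ofComplex (s ^ n) f) z
  rw [e, hz, slope_def_field, hG0, div_pow, smul_eq_mul]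
  field_simp

/-- A function invariant under a power of `s` has order divisible accordingly. -/
theorem ordMer_dvd (hs : s • τ₀ = τ₀) (e₀ : ℕ)
    (hprim : ∀ k : ℤ, (denom s τ₀ ^ 2) ^ k = 1 → (e₀ : ℤ) ∣ k)
    (n : ℕ) (g : MerH) (hg : g ≠ 0) (hfix : (actMer s)^[n] g = g) :
    (e₀ : ℤ) ∣ (n : ℤ) * ordMer τ₀ g := by
  obtain ⟨a, b, hb, rfl⟩ := IsFractionRing.div_surjective (A := HolH) g
  have hb0 : b ≠ 0 := mem_nonZeroDivisors_iff_ne_zero.mp hb
  have ha0 : a ≠ 0 := by rintro rfl; simp at hg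
  have hiter : (actMer s)^[n] (algebraMap HolH MerH a / algebraMap HolH MerH b)
      = algebraMap HolH MerH (actHol (s ^ n) a) / algebraMap HolH MerH (actHol (s ^ n) b) := by
    rw [← actMer_iterate, ← actMer_iterate]
    have : ∀ k : ℕ, ∀ x y : MerH, (actMer s)^[k] (x / y) = (actMer s)^[k] x / (actMer s)^[k] y := by
      intro k
      induction k with
      | zero => simp
      | succ k ih => intro x y; rw [Function.iterate_succ_apply', ih, map_div₀]; simp [Function.iterate_succ_apply']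
    exact this n _ _
  rw [hiter] at hfix
  have hbn : actHol (s ^ n) b ≠ 0 := fun h => hb0 ((actHol _).injective (h.trans (map_zero _).symm))
  rw [div_eq_div_iff ((_root_.map_ne_zero_iff _ (IsFractionRing.injective HolH MerH)).mpr hbn)
    ((_root_.map_ne_zero_iff _ (IsFractionRing.injective HolH MerH)).mpr hb0), ← map_mul, ← map_mul]
    at hfix
  have heq := IsFractionRing.injective HolH MerH hfix
  obtain ⟨ca, hca, hta⟩ := tendsto_actHol_div hs ha0
  obtain ⟨cb, hcb, htb⟩ := tendsto_actHol_div hs hb0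
  set p := analyticOrderNatAt ((a : ℍ → ℂ) ∘ ofComplex) (τ₀ : ℂ) with hp
  set q := analyticOrderNatAt ((b : ℍ → ℂ) ∘ ofComplex) (τ₀ : ℂ) with hq
  have h1 := (hta n).mul (htb 0)
  have h2 := (hta 0).mul (htb n)
  have h12 : ((denom s τ₀ ^ n) ^ 2)⁻¹ ^ p * ca * (((denom s τ₀ ^ 0) ^ 2)⁻¹ ^ q * cb)
      = ((denom s τ₀ ^ 0) ^ 2)⁻¹ ^ p * ca * (((denom s τ₀ ^ n) ^ 2)⁻¹ ^ q * cb) := by
    refine tendsto_nhds_unique h1 (h2.congr' (Eventually.of_forall fun z => ?_))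
    have := congrFun (congrArg Subtype.val heq) (ofComplex z)
    simp only [Subalgebra.coe_mul, Pi.mul_apply] at this
    have hone : ∀ f : HolH, actHol (s ^ 0) f = f := fun f =>
      Subtype.ext (funext fun w => by simp)
    simp only [hone]
    rw [div_mul_div_comm, div_mul_div_comm, this]
  have hd : denom s τ₀ ≠ 0 := denom_ne_zero _ _
  simp only [pow_zero, one_pow, inv_one, one_mul] at h12
  have h3 : ((denom s τ₀ ^ n) ^ 2)⁻¹ ^ p = ((denom s τ₀ ^ n) ^ 2)⁻¹ ^ q := by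
    apply mul_right_cancel₀ (mul_ne_zero hca hcb)
    linear_combination h12
  have h4 : (denom s τ₀ ^ 2) ^ ((n : ℤ) * ((p : ℤ) - q)) = 1 := by
    rw [inv_pow, inv_pow, inv_inj] at h3
    have e : ((denom s τ₀ ^ n) ^ 2) = (denom s τ₀ ^ 2) ^ n := by
      rw [← pow_mul, ← pow_mul, mul_comm]
    rw [e] at h3
    rw [mul_sub, zpow_sub₀ (pow_ne_zero 2 hd), zpow_mul, zpow_mul, zpow_natCast, zpow_natCast,
      zpow_natCast, h3, div_self]
    exact pow_ne_zero _ (pow_ne_zero _ (pow_ne_zero _ hd))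
  have := hprim _ h4
  convert this using 2
  rw [ModFun.ordMer_div ha0 hb0]
  rfl

end Fermat.Agent.Genus
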