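import Mathlib

/-!
# Counting orbits of a permutation of prime order
-/

set_option autoImplicit false

noncomputable section

namespace Fermat.Agent.Genus

variable {G Ω : Type*} [Group G] [MulAction G Ω]

/-- Orbits of `g` and of the permutation it induces. -/
theorem natCard_orbits_toPerm (g : G) :
    Nat.card (MulAction.orbitRel.Quotient (Subgroup.zpowers (MulAction.toPermHom G Ω g)) Ω)
      = Nat.card (MulAction.orbitRel.Quotient (Subgroup.zpowers g) Ω) := by
  refine Nat.card_congr (Quotient.congrRight fun a b => ?_)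
  simp only [MulAction.orbitRel_apply, MulAction.mem_orbit_iff, Subtype.exists,
    Subgroup.mem_zpowers_iff]
  constructor
  · rintro ⟨_, ⟨k, rfl⟩, hk⟩
    refine ⟨g ^ k, ⟨k, rfl⟩, ?_⟩
    rw [Subgroup.mk_smul] at hk ⊢
    rwa [← map_zpow] at hk
  · rintro ⟨_, ⟨k, rfl⟩, hk⟩
    refine ⟨MulAction.toPermHom G Ω g ^ k, ⟨k, rfl⟩, ?_⟩
    rw [Subgroup.mk_smul] at hk ⊢
    rwa [← map_zpow]

/-- `p * #orbits = #Ω + (p - 1) * #fixed points` when `g ^ p` acts trivially, `p` prime. -/
theorem prime_mul_natCard_orbits [Finite Ω] (g : G) {p : ℕ} (hp : p.Prime)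
    (h : ∀ x : Ω, g ^ p • x = x) :
    p * Nat.card (MulAction.orbitRel.Quotient (Subgroup.zpowers g) Ω)
      = Nat.card Ω + (p - 1) * Nat.card (MulAction.fixedBy Ω g) := by
  classical
  have := Fintype.ofFinite Ω
  set Q := MulAction.orbitRel.Quotient (Subgroup.zpowers g) Ω
  have : Fintype Q := Fintype.ofFinite Q
  have hsize : ∀ x : Ω, Nat.card (MulAction.orbit (Subgroup.zpowers g) x)
      = if g • x = x then 1 else p := by
    intro x
    rw [Nat.card_eq_fintype_card, ← MulAction.minimalPeriod_eq_card]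
    have hdvd : Function.minimalPeriod (g • ·) x ∣ p := by
      rw [← MulAction.pow_smul_eq_iff_minimalPeriod_dvd]; exact h x
    rcases (Nat.dvd_prime hp).mp hdvd with h1 | h1 <;> rw [h1]
    · rw [Function.minimalPeriod_eq_one_iff_isFixedPt] at h1
      rw [if_pos (show g • x = x from h1)]
    · rw [if_neg]
      intro hx
      have : Function.minimalPeriod (g • ·) x = 1 :=
        Function.minimalPeriod_eq_one_iff_isFixedPt.mpr hx
      rw [this] at h1
      exact hp.one_lt.ne h1
  have hΩ : Nat.card Ω = ∑ q : Q, Nat.card q.orbit := by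
    rw [Nat.card_congr (MulAction.selfEquivSigmaOrbits' (Subgroup.zpowers g) Ω), Nat.card_sigma]
  have hfix : Nat.card (MulAction.fixedBy Ω g) = ∑ q : Q, if g • q.out = q.out then 1 else 0 := by
    rw [Finset.sum_boole, Nat.cast_id, ← Fintype.card_subtype, ← Nat.card_eq_fintype_card]
    have huniq : ∀ x : Ω, g • x = x → (Quotient.mk'' x : Q).out = x := by
      intro x hx
      have hmem : (Quotient.mk'' x : Q).out ∈ MulAction.orbit (Subgroup.zpowers g) x :=
        MulAction.orbitRel_apply.mp (Quotient.mk_out' x)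
      obtain ⟨⟨_, k, rfl⟩, hk⟩ := hmem
      rw [← hk]
      exact MulAction.mem_fixedBy.mp (MulAction.mem_fixedBy_zpowers_iff_mem_fixedBy.mpr hx _)
    refine Nat.card_congr
      { toFun := fun x => ⟨Quotient.mk'' x.1, by rw [huniq x.1 x.2]; exact x.2⟩
        invFun := fun q => ⟨q.1.out, q.2⟩
        left_inv := fun x => Subtype.ext (huniq x.1 x.2)
        right_inv := fun q => Subtype.ext (Quotient.out_eq' q.1) }
  have hq : ∀ q : Q, Nat.card q.orbit + (p - 1) * (if g • q.out = q.out then 1 else 0) = p := by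
    intro q
    rw [MulAction.orbitRel.Quotient.orbit_eq_orbit_out q Quotient.out_eq', hsize]
    split_ifs with hx
    · have := hp.one_lt; omega
    · omega
  rw [hΩ, hfix, Finset.mul_sum, ← Finset.sum_add_distrib, Finset.sum_congr rfl fun q _ => hq q,
    Finset.sum_const, Finset.card_univ, smul_eq_mul, mul_comm, Nat.card_eq_fintype_card]

end Fermat.Agent.Genus
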