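import Fermat.Agent.Genus.Counts

/-!
# Ramification bounds over `j = 0, 1728` and elsewhere
-/

set_option autoImplicit false

noncomputable section

open UpperHalfPlane hiding I
open MatrixGroups CongruenceSubgroup AlgebraicCurve ModularCurve
open scoped WithZero IntermediateField

namespace Fermat.Agent.Genus

local notation "Qb" => AlgebraicClosure ℚ

variable (N : ℕ) [NeZero N]

/-- If `g ^ p` acts trivially on the cosets, ramification indices over `j(τ₀)` divide `p`. -/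
theorem ord_jB_sub_dvd (a : Qb) (τ₀ : ℍ) (g : SL(2, ℤ)) (hg : g • τ₀ = τ₀) (e₀ p : ℕ)
    (he₀ : e₀ ≠ 0)
    (hord : analyticOrderAt ((fun z => jH z - toC0 a) ∘ ofComplex) (τ₀ : ℂ) = (e₀ : ℕ∞))
    (hprim : ∀ k : ℤ, (denom g τ₀ ^ 2) ^ k = 1 → (e₀ : ℤ) ∣ k)
    (hp : ∀ c : ModFun.Coset N, g ^ p • c = c)
    (v : Place Qb (Fbar N)) (hv : 0 < v.ord (jB N - algebraMap Qb (Fbar N) a)) :
    v.ord (jB N - algebraMap Qb (Fbar N) a) ∣ (p : ℤ) := by
  classical
  set y := jB N - algebraMap Qb (Fbar N) a with hy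
  have hyt : Transcendental Qb y := transcendental_jB_sub N a
  have hy0 : y ≠ 0 := fun h => hyt (h ▸ isAlgebraic_zero)
  let : Algebra Qb ModFun.MerH := ((algebraMap ℂ ModFun.MerH).comp toC0).toAlgebra
  let := Fintype.ofFinite (ModFun.Coset N)
  have := (degree_jB_sub N a).1
  let φ : ModFun.Coset N → (Fbar N →ₐ[Qb] ModFun.MerH) := fun c =>
    { (ModFun.emb N c).toRingHom.comp (incl N) with
      commutes' := fun b => by
        show ModFun.emb N c (incl N (algebraMap Qb (Fbar N) b)) = algebraMap ℂ ModFun.MerH (toC0 b)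
        rw [incl_algebraMap, AlgHom.commutes] }
  have hφ : Function.Injective φ := by
    intro c c' h
    obtain ⟨x, hx⟩ := exists_incl_eq_jNF N
    have h' : ModFun.emb N c (ModFun.jNF N) = ModFun.emb N c' (ModFun.jNF N) := by
      rw [← hx]; exact DFunLike.congr_fun h x
    refine ModFun.tr_jd_injective (N := N) (ModFun.toMerH_injective N ?_)
    simp only [ModFun.jNF, ModFun.emb_toFC] at h'
    exact h'
  have hcard : Fintype.card (ModFun.Coset N) = Module.finrank Qb⟮y⟯ (Fbar N) := by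
    rw [← Nat.card_eq_fintype_card, ModFun.natCard_coset, (degree_jB_sub N a).2]
  set y₀ : ModFun.MerH := algebraMap ModFun.HolH ModFun.MerH (jSub (toC0 a)) with hy₀
  have hval : ∀ c, φ c y = y₀ := by
    intro c
    show ModFun.emb N c (incl N y) = y₀
    rw [hy, map_sub, incl_jB, incl_algebraMap, map_sub, AlgHom.commutes, ModFun.emb_jF,
      ← (ModFun.toMerH N).commutes (toC0 a), ← map_sub, ModFun.toMerH_apply]
    exact congrArg _ (Subtype.ext (funext fun z => rfl))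
  have hne : jSub (toC0 a) ≠ 0 := by
    intro h
    have e : ((fun z => jH z - toC0 a) ∘ ofComplex) = (0 : ℂ → ℂ) :=
      funext fun w => congrFun (congrArg Subtype.val h) (ofComplex w)
    have e' : analyticOrderAt (0 : ℂ → ℂ) (τ₀ : ℂ) = ⊤ :=
      analyticOrderAt_eq_top.mpr (Filter.Eventually.of_forall fun _ => rfl)
    rw [e, e'] at hord
    exact ENat.top_ne_natCast e₀ hord
  have hordy : ordL (ModFun.valAt τ₀) y₀ = e₀ := by
    show ModFun.ordMer τ₀ _ = _
    rw [hy₀, ModFun.ordMer_algebraMap hne, ModFun.ordHol]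
    show ((analyticOrderAt ((fun z => jH z - toC0 a) ∘ ofComplex) (τ₀ : ℂ)).toNat : ℤ) = e₀
    rw [hord, ENat.toNat_natCast]
  have hy₀0 : y₀ ≠ 0 := fun h => by rw [h] at hordy; simp [ordL] at hordy; omega
  obtain ⟨ω, hω⟩ := exists_embedding_of_place y (0 : Qb) (by simpa using hy0) (ModFun.valAt τ₀)
    (fun b hb => ModFun.valAt_constant ((_root_.map_ne_zero toC0).mpr hb) τ₀) φ hφ hcard
    (fun c c' => (hval c).trans (hval c').symm)
    (fun c => by
      rw [hval, map_zero, sub_zero, ← ordL_pos_iff _ hy₀0, hordy]; omega)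
    v (by rw [map_zero, sub_zero, adicValuation_lt_one_iff v hy0]; exact hv)
  obtain ⟨π, hπ0, hπ⟩ := exists_ord_mul v (ModFun.valAt τ₀) (φ ω) hω
  have he : (e₀ : ℤ) = v.ord y * ordL (ModFun.valAt τ₀) (φ ω π) := by
    rw [← hπ _ hy0, hval, hordy]
  have hiter : ∀ k : ℕ, ((ModFun.actMer g) : ModFun.MerH → ModFun.MerH)^[k] (φ ω π)
      = ModFun.emb N (g⁻¹ ^ k • ω) (incl N π) := by
    intro k
    induction k with
    | zero => simp [φ]
    | succ k ih =>
      rw [Function.iterate_succ_apply', ih, ModFun.emb_smul, ← mul_smul, ← pow_succ']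
  have hfix : ((ModFun.actMer g) : ModFun.MerH → ModFun.MerH)^[p] (φ ω π) = φ ω π := by
    rw [hiter, inv_pow, inv_smul_eq_iff.mpr (hp ω).symm]
    rfl
  have hdvd : (e₀ : ℤ) ∣ (p : ℤ) * ordL (ModFun.valAt τ₀) (φ ω π) :=
    ordMer_dvd hg e₀ hprim p _ ((_root_.map_ne_zero (φ ω)).mpr hπ0) hfix
  have hne' : ordL (ModFun.valAt τ₀) (φ ω π) ≠ 0 := by
    intro h; rw [h, mul_zero] at he; omega
  rw [he] at hdvd
  exact Int.dvd_of_mul_dvd_mul_right hne' hdvd

/-- `ord (j - 1728) ≤ 2`. -/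
theorem ord_jB_sub_1728_le (v : Place Qb (Fbar N)) :
    v.ord (jB N - algebraMap Qb (Fbar N) 1728) ≤ 2 := by
  rcases le_or_gt (v.ord (jB N - algebraMap Qb (Fbar N) 1728)) 0 with h | h
  · omega
  refine Int.le_of_dvd two_pos ?_
  refine ord_jB_sub_dvd N 1728 UpperHalfPlane.I ModularGroup.S S_smul_I 2 2 two_ne_zero ?_ ?_ ?_ v h
  · rw [map_ofNat]; exact analyticOrderAt_jH_sub_1728 E₆_I
  · intro k hk
    rw [ModularGroup.denom_S, show ((UpperHalfPlane.I : ℍ) : ℂ) ^ 2 = -1 by simp] at hk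
    exact (IsPrimitiveRoot.neg_one 0 (by norm_num)).zpow_eq_one_iff_dvd k |>.mp hk
  · intro c
    exact pm_one_smul N (Or.inr (by rw [pow_two]; exact Gamma0.S_mul_S)) c

/-- `ord (j) ≤ 3`. -/
theorem ord_jB_le (v : Place Qb (Fbar N)) : v.ord (jB N) ≤ 3 := by
  rcases le_or_gt (v.ord (jB N)) 0 with h | h
  · omega
  refine Int.le_of_dvd three_pos ?_
  have e : jB N - algebraMap Qb (Fbar N) 0 = jB N := by rw [map_zero, sub_zero]
  have := ord_jB_sub_dvd N 0 UpperHalfPlane.ρ Gamma0.ST ST_smul_ρ 3 3 three_ne_zero ?_ ?_ ?_ v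
    (e.symm ▸ h)
  · rwa [e] at this
  · simp only [map_zero, sub_zero]; exact analyticOrderAt_jH_zero E₄_ρ
  · intro k hk
    have hd : denom Gamma0.ST (UpperHalfPlane.ρ : ℂ) = (UpperHalfPlane.ρ : ℂ) + 1 := by
      rw [Gamma0.ST, ModularGroup.denom_apply]
      simp [Matrix.SpecialLinearGroup.coe_mul, ModularGroup.coe_S, ModularGroup.coe_T]
    rw [hd, show ((UpperHalfPlane.ρ : ℂ) + 1) ^ 2 = UpperHalfPlane.ρ by
      linear_combination UpperHalfPlane.ρ_sq] at hk
    have hs := UpperHalfPlane.ρ_sq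
    have h3 : (UpperHalfPlane.ρ : ℂ) ^ 3 = 1 := by
      linear_combination ((UpperHalfPlane.ρ : ℂ) - 1) * hs
    have hne : (UpperHalfPlane.ρ : ℂ) ≠ 1 := by
      intro h; rw [h] at hs; norm_num at hs
    have hρ : IsPrimitiveRoot (UpperHalfPlane.ρ : ℂ) 3 :=
      (orderOf_eq_prime h3 hne) ▸ IsPrimitiveRoot.orderOf _
    exact (hρ.zpow_eq_one_iff_dvd k).mp hk
  · intro c
    exact pm_one_smul N (Or.inr Gamma0.ST_pow_three) c

/-- `ord (j - a) ≤ 1` for `a ≠ 0, 1728`. -/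
theorem ord_jB_sub_le_one (a : Qb) (h0 : a ≠ 0) (h1 : a ≠ 1728) (v : Place Qb (Fbar N)) :
    v.ord (jB N - algebraMap Qb (Fbar N) a) ≤ 1 := by
  rcases le_or_gt (v.ord (jB N - algebraMap Qb (Fbar N) a)) 0 with h | h
  · omega
  obtain ⟨τ₀, hτ⟩ := jH_surjective (toC0 a)
  refine Int.le_of_dvd one_pos ?_
  have := ord_jB_sub_dvd N a τ₀ 1 (one_smul _ _) 1 1 one_ne_zero
    (analyticOrderAt_jH_sub ((_root_.map_ne_zero toC0).mpr h0)
      (fun h => h1 (toC0.injective (by rw [h, map_ofNat]))) hτ)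
    (fun k _ => one_dvd _) (fun c => by rw [one_pow, one_smul]) v h
  simpa using this

end Fermat.Agent.Genus
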