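import Mathlib
import Fermat.Prelude.Def_AlgebraicCurve_Repartitions

/-!
# Places over a point of the line, counted by orbits on embeddings

`F/K` a function field with `x : F`, `L` a field with a valuation which is trivial on `K`, and `n`
embeddings `F → L` (`n = [F : K(x)]`) agreeing on `x`.  Every place over `x = a` is induced by one of
the embeddings, and if `σ` is an automorphism of `L` permuting them whose fixed elements have order
divisible by the order `e₀` of `x - a`, then places over `a` correspond to `σ`-orbits.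
-/

set_option autoImplicit false

noncomputable section

open Polynomial AlgebraicCurve WithZero

namespace Fermat.Agent.Genus

variable {K F L : Type*} [Field K] [Field F] [Field L] [Algebra K F] [Algebra K L]

/-- The order attached to a `ℤᵐ⁰`-valued valuation. -/
def ordL (v : Valuation L ℤᵐ⁰) (g : L) : ℤ := -(WithZero.log (v g))

lemma ordL_spec (v : Valuation L ℤᵐ⁰) {g : L} (hg : g ≠ 0) :
    v g = exp (-ordL v g) := by
  simp [ordL, exp_log ((Valuation.ne_zero_iff v).mpr hg)]

lemma ordL_pos_iff (v : Valuation L ℤᵐ⁰) {g : L} (hg : g ≠ 0) : 0 < ordL v g ↔ v g < 1 := by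
  rw [ordL_spec v hg, ← exp_zero, exp_lt_exp]; omega

lemma ordL_mul (v : Valuation L ℤᵐ⁰) {g h : L} (hg : g ≠ 0) (hh : h ≠ 0) :
    ordL v (g * h) = ordL v g + ordL v h := by
  simp only [ordL, map_mul]
  rw [log_mul ((Valuation.ne_zero_iff v).mpr hg) ((Valuation.ne_zero_iff v).mpr hh)]
  ring

lemma ordL_zpow (v : Valuation L ℤᵐ⁰) (g : L) (n : ℤ) : ordL v (g ^ n) = n * ordL v g := by
  simp only [ordL, map_zpow₀, log_zpow, smul_eq_mul]; ring

/-- The value of a polynomial at an element close to the constant `a`. -/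
lemma valuation_aeval_eq {M : Type*} [Field M] [Algebra K M] (v : Valuation M ℤᵐ⁰)
    (hK : ∀ c : K, c ≠ 0 → v (algebraMap K M c) = 1) {y : M} {a : K}
    (hy : v (y - algebraMap K M a) < 1) {P : K[X]} (hP : P ≠ 0) :
    v (aeval y P) = v (y - algebraMap K M a) ^ P.rootMultiplicity a := by
  obtain ⟨R, hR⟩ := exists_eq_pow_rootMultiplicity_mul_and_not_dvd P hP a
  obtain ⟨hR1, hR2⟩ := hR
  have hRa : R.eval a ≠ 0 := fun h => hR2 (dvd_iff_isRoot.mpr h)
  obtain ⟨T, hT⟩ : (X - C a) ∣ R - C (R.eval a) := by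
    simp [dvd_iff_isRoot]
  have hle : ∀ Q : K[X], v (aeval y Q) ≤ 1 := by
    have hy1 : v y ≤ 1 := by
      have h : y = (y - algebraMap K M a) + algebraMap K M a := (sub_add_cancel y _).symm
      rw [h]
      refine (v.map_add _ _).trans (max_le hy.le ?_)
      by_cases ha : a = 0
      · simp [ha]
      · exact (hK a ha).le
    intro Q
    induction Q using Polynomial.induction_on' with
    | add p q hp hq => rw [map_add]; exact (v.map_add _ _).trans (max_le hp hq)
    | monomial n c =>
      rw [aeval_monomial, map_mul, map_pow]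
      by_cases hc : c = 0
      · simp [hc]
      · rw [hK c hc, one_mul]; exact pow_le_one₀ zero_le hy1
  have hval : v (aeval y R) = 1 := by
    have e : R = C (R.eval a) + (X - C a) * T := by rw [← hT]; ring
    rw [e, map_add, map_mul, map_sub, aeval_C, aeval_X, aeval_C]
    rw [Valuation.map_add_eq_of_lt_left]
    · exact hK _ hRa
    · rw [hK _ hRa, map_mul]
      exact lt_of_le_of_lt (mul_le_of_le_one_right' (hle T)) hy
  conv_lhs => rw [hR1]
  rw [map_mul, map_mul, map_pow, map_pow, map_sub, aeval_X, aeval_C, hval, mul_one]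

variable (x : F) (a : K)

/-- Elements of `K(x)` which are small at the image of `a` in `L` are small at every place over
`a`. -/
lemma small_of_small_adjoin (hne : x - algebraMap K F a ≠ 0) (vL : Valuation L ℤᵐ⁰)
    (hKL : ∀ c : K, c ≠ 0 → vL (algebraMap K L c) = 1)
    (φ : F →ₐ[K] L) (hφ : vL (φ x - algebraMap K L a) < 1)
    (v : Place K F) (hv : v.adicValuation (x - algebraMap K F a) < 1)
    {c : F} (hc : c ∈ IntermediateField.adjoin K {x}) (hsmall : vL (φ c) < 1) :
    v.adicValuation c < 1 := by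
  obtain ⟨P, Q, rfl⟩ := (IntermediateField.mem_adjoin_simple_iff K c).mp hc
  rcases eq_or_ne P 0 with rfl | hP
  · simp
  rcases eq_or_ne Q 0 with rfl | hQ
  · simp
  have hKv : ∀ c : K, c ≠ 0 → v.adicValuation (algebraMap K F c) = 1 := by
    intro c hc
    refine le_antisymm (v.adicValuation_algebraMap_le_one c) ?_
    have h := v.adicValuation_algebraMap_le_one c⁻¹
    rw [map_inv₀, map_inv₀] at h
    exact (inv_le_one₀ (zero_lt_iff.mpr ((Valuation.ne_zero_iff _).mpr (by simpa using hc)))).mp h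
  have hneL : φ x - algebraMap K L a ≠ 0 := by
    rw [← φ.commutes, ← map_sub]
    exact (_root_.map_ne_zero φ).mpr hne
  have eP : vL (φ (aeval x P)) = vL (φ x - algebraMap K L a) ^ P.rootMultiplicity a := by
    rw [← aeval_algHom_apply φ x P]; exact valuation_aeval_eq vL hKL hφ hP
  have eQ : vL (φ (aeval x Q)) = vL (φ x - algebraMap K L a) ^ Q.rootMultiplicity a := by
    rw [← aeval_algHom_apply φ x Q]; exact valuation_aeval_eq vL hKL hφ hQ
  rw [map_div₀, map_div₀, eP, eQ] at hsmall
  rw [map_div₀, valuation_aeval_eq _ hKv hv hP, valuation_aeval_eq _ hKv hv hQ]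
  have key : ∀ t : ℤᵐ⁰, t ≠ 0 → t < 1 → ∀ p q : ℕ, (t ^ p / t ^ q < 1 ↔ q < p) := by
    intro t ht ht1 p q
    rw [div_lt_one₀ (zero_lt_iff.mpr (pow_ne_zero _ ht))]
    exact (pow_right_strictAnti₀ (zero_lt_iff.mpr ht) ht1).lt_iff_gt
  rw [key _ ((Valuation.ne_zero_iff _).mpr hneL) hφ] at hsmall
  rw [key _ ((Valuation.ne_zero_iff _).mpr hne) hv]
  exact hsmall

lemma prod_X_sub_C_coeff_small (vL : Valuation L ℤᵐ⁰) :
    ∀ M : Multiset L, (∀ r ∈ M, vL r < 1) → ∀ i,
      vL ((M.map fun r => X - C r).prod.coeff i) ≤ 1 ∧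
        (i < Multiset.card M → vL ((M.map fun r => X - C r).prod.coeff i) < 1) := by
  intro M
  induction M using Multiset.induction with
  | empty =>
    intro _ i
    simp only [Multiset.map_zero, Multiset.prod_zero, coeff_one, Multiset.card_zero, not_lt_zero,
      IsEmpty.forall_iff, and_true]
    split_ifs <;> simp
  | cons r M ih =>
    intro hM i
    have hr := hM r (Multiset.mem_cons_self _ _)
    have ih := ih fun s hs => hM s (Multiset.mem_cons_of_mem hs)
    simp only [Multiset.map_cons, Multiset.prod_cons, Multiset.card_cons]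
    set Q := (M.map fun r => X - C r).prod
    rcases i with _ | i
    · have : ((X - C r) * Q).coeff 0 = -(r * Q.coeff 0) := by
        simp [sub_mul, coeff_sub]
      rw [this, Valuation.map_neg, map_mul]
      have h : vL r * vL (Q.coeff 0) < 1 :=
        lt_of_le_of_lt (mul_le_of_le_one_right' (ih 0).1) hr
      exact ⟨h.le, fun _ => h⟩
    · have : ((X - C r) * Q).coeff (i + 1) = Q.coeff i - r * Q.coeff (i + 1) := by
        simp [sub_mul, coeff_sub]
      rw [this]
      have h : vL (r * Q.coeff (i + 1)) < 1 := by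
        rw [map_mul]; exact lt_of_le_of_lt (mul_le_of_le_one_right' (ih (i + 1)).1) hr
      refine ⟨(vL.map_sub _ _).trans (max_le (ih i).1 h.le), fun hi => ?_⟩
      exact lt_of_le_of_lt (vL.map_sub _ _) (max_lt ((ih i).2 (by omega)) h)

variable {Ω : Type*} [Fintype Ω]
variable [CharZero K] [FiniteDimensional (IntermediateField.adjoin K {x}) F]

omit [Fintype Ω] [CharZero K] [FiniteDimensional (IntermediateField.adjoin K {x}) F] in
lemma algHom_eq_on_adjoin (φ ψ : F →ₐ[K] L) (h : φ x = ψ x) {c : F}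
    (hc : c ∈ IntermediateField.adjoin K {x}) : φ c = ψ c := by
  obtain ⟨P, Q, rfl⟩ := (IntermediateField.mem_adjoin_simple_iff K c).mp hc
  rw [map_div₀, map_div₀, ← aeval_algHom_apply, ← aeval_algHom_apply, ← aeval_algHom_apply,
    ← aeval_algHom_apply, h]

/-- If `g` is small under all `[F : K(x)]` embeddings then it is small at every place over `a`. -/
lemma small_of_forall_small (hne : x - algebraMap K F a ≠ 0) (vL : Valuation L ℤᵐ⁰)
    (hKL : ∀ c : K, c ≠ 0 → vL (algebraMap K L c) = 1) (φ : Ω → (F →ₐ[K] L))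
    (hφinj : Function.Injective φ)
    (hcard : Fintype.card Ω = Module.finrank (IntermediateField.adjoin K {x}) F)
    (hx : ∀ ω ω', φ ω x = φ ω' x) (hφ : ∀ ω, vL (φ ω x - algebraMap K L a) < 1)
    (v : Place K F) (hv : v.adicValuation (x - algebraMap K F a) < 1)
    {g : F} (hg : ∀ ω, vL (φ ω g) < 1) : v.adicValuation g < 1 := by
  set E := IntermediateField.adjoin K {x} with hE
  obtain ⟨ω₀⟩ : Nonempty Ω := by
    rw [← Fintype.card_pos_iff, hcard]; exact Module.finrank_pos
  let : Algebra E L := ((φ ω₀).toRingHom.comp (algebraMap E F)).toAlgebra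
  let ψ : Ω → (F →ₐ[E] L) := fun ω =>
    { (φ ω).toRingHom with
      commutes' := fun c => algHom_eq_on_adjoin x (φ ω) (φ ω₀) (hx ω ω₀) c.2 }
  let Lb := AlgebraicClosure L
  let Ψ : Ω → (F →ₐ[E] Lb) := fun ω => (IsScalarTower.toAlgHom E L Lb).comp (ψ ω)
  have hΨinj : Function.Injective Ψ := by
    intro ω ω' h
    refine hφinj (AlgHom.ext fun y => ?_)
    exact (algebraMap L Lb).injective (DFunLike.congr_fun h y)
  have : CharZero E := algebraRat.charZero _
  have hbij : Function.Bijective Ψ :=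
    (Fintype.bijective_iff_injective_and_card Ψ).mpr
      ⟨hΨinj, by rw [hcard, AlgHom.card]⟩
  have hint : IsIntegral E g := IsIntegral.of_finite E g
  set P := minpoly E g with hP
  have hsplit : (P.map (algebraMap E Lb)).Splits := IsAlgClosed.splits _
  have hroots : ∀ r ∈ (P.map (algebraMap E Lb)).roots, ∃ ω, algebraMap L Lb (φ ω g) = r := by
    intro r hr
    have hr' : r ∈ P.rootSet Lb := by
      rw [mem_rootSet]
      refine ⟨minpoly.ne_zero hint, ?_⟩
      have := (mem_roots'.mp hr).2
      rwa [IsRoot, eval_map, ← aeval_def] at this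
    rw [← Algebra.IsAlgebraic.range_eval_eq_rootSet_minpoly] at hr'
    obtain ⟨Φ, rfl⟩ := hr'
    obtain ⟨ω, rfl⟩ := hbij.2 Φ
    exact ⟨ω, rfl⟩
  have : Nonempty Ω := ⟨ω₀⟩
  choose! w hw using hroots
  set M := (P.map (algebraMap E Lb)).roots.map fun r => φ (w r) g with hM
  have hMmap : M.map (algebraMap L Lb) = (P.map (algebraMap E Lb)).roots := by
    rw [hM, Multiset.map_map]
    conv_rhs => rw [← Multiset.map_id (P.map (algebraMap E Lb)).roots]
    exact Multiset.map_congr rfl hw
  have hPL : P.map (algebraMap E L) = (M.map fun r => X - C r).prod := by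
    apply Polynomial.map_injective (algebraMap L Lb) (algebraMap L Lb).injective
    rw [Polynomial.map_map, ← IsScalarTower.algebraMap_eq,
      hsplit.eq_prod_roots_of_monic ((minpoly.monic hint).map _), ← hMmap,
      Polynomial.map_multiset_prod]
    simp only [hM, Multiset.map_map, Function.comp_def, Polynomial.map_sub, map_X, map_C]
  have hdeg : Multiset.card M = P.natDegree := by
    have := congrArg natDegree hPL
    rwa [natDegree_map, natDegree_multiset_prod_X_sub_C_eq_card, eq_comm] at this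
  have hMsmall : ∀ r ∈ M, vL r < 1 := by
    intro r hr
    rw [hM, Multiset.mem_map] at hr
    obtain ⟨s, -, rfl⟩ := hr
    exact hg _
  have hcoeff : ∀ i, i < P.natDegree → v.adicValuation (P.coeff i : F) < 1 := by
    intro i hi
    refine small_of_small_adjoin x a hne vL hKL (φ ω₀) (hφ ω₀) v hv (P.coeff i).2 ?_
    have := (prod_X_sub_C_coeff_small vL M hMsmall i).2 (hdeg ▸ hi)
    rw [← hPL, coeff_map] at this
    exact this
  by_contra hbig
  rw [not_lt] at hbig
  have heq : g ^ P.natDegree + ∑ i ∈ Finset.range P.natDegree, (P.coeff i : F) * g ^ i = 0 := by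
    have := minpoly.aeval E g
    rw [← hP, aeval_eq_sum_range, Finset.sum_range_succ] at this
    rw [(minpoly.monic hint).coeff_natDegree, one_smul, add_comm] at this
    exact this
  have hpos : 0 < v.adicValuation g ^ P.natDegree :=
    pow_pos (lt_of_lt_of_le zero_lt_one hbig) _
  have hlt : v.adicValuation (∑ i ∈ Finset.range P.natDegree, (P.coeff i : F) * g ^ i)
      < v.adicValuation g ^ P.natDegree := by
    refine Valuation.map_sum_lt _ hpos.ne' fun i hi => ?_
    rw [map_mul, map_pow]
    calc v.adicValuation (P.coeff i : F) * v.adicValuation g ^ i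
        < 1 * v.adicValuation g ^ i := by
          exact mul_lt_mul_of_pos_right (hcoeff i (Finset.mem_range.mp hi))
            (pow_pos (lt_of_lt_of_le zero_lt_one hbig) _)
      _ ≤ v.adicValuation g ^ P.natDegree := by
          rw [one_mul]; exact pow_le_pow_right₀ hbig (Finset.mem_range.mp hi).le
  have := congrArg v.adicValuation heq
  rw [Valuation.map_add_eq_of_lt_left _ (by rwa [map_pow]), map_zero, map_pow] at this
  exact hpos.ne' this

omit [CharZero K] [FiniteDimensional (IntermediateField.adjoin K {x}) F] in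
/-- Simultaneous large values: one element of `O_v` large under all embeddings. -/
lemma exists_all_large (vL : Valuation L ℤᵐ⁰) (φ : Ω → (F →ₐ[K] L)) (v : Place K F)
    (h : ∀ ω, ∃ f, v.adicValuation f ≤ 1 ∧ 1 < vL (φ ω f)) :
    ∃ f, v.adicValuation f ≤ 1 ∧ ∀ ω, 1 < vL (φ ω f) := by
  classical
  suffices ∀ S : Finset Ω, ∃ f, v.adicValuation f ≤ 1 ∧ ∀ ω ∈ S, 1 < vL (φ ω f) by
    obtain ⟨f, h1, h2⟩ := this Finset.univ
    exact ⟨f, h1, fun ω => h2 ω (Finset.mem_univ ω)⟩
  intro S
  induction S using Finset.induction with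
  | empty => exact ⟨0, by simp, by simp⟩
  | insert ω₀ S hω₀ ih =>
    obtain ⟨f, hf, hfS⟩ := ih
    obtain ⟨g, hg, hg0⟩ := h ω₀
    let bad : Set ℕ :=
      ⋃ ω : Ω, {k | vL (φ ω g) ≠ 0 ∧ vL (φ ω g) ≠ 1 ∧ vL (φ ω g) ^ k = vL (φ ω f)}
    have hbad : (bad ∪ {0}).Finite := by
      refine (Set.finite_iUnion fun ω => Set.Subsingleton.finite ?_).union (Set.finite_singleton 0)
      rintro k ⟨h0, h1, hk⟩ k' ⟨-, -, hk'⟩
      have := congrArg WithZero.log (hk.trans hk'.symm)
      rw [log_pow, log_pow, nsmul_eq_mul, nsmul_eq_mul] at this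
      have hne : WithZero.log (vL (φ ω g)) ≠ 0 := by
        intro hlog
        exact h1 (by rw [← exp_log h0, hlog, exp_zero])
      exact_mod_cast mul_right_cancel₀ hne this
    obtain ⟨k, hk⟩ := hbad.exists_notMem
    simp only [bad, Set.mem_union, Set.mem_iUnion, Set.mem_ofPred_eq, Set.mem_singleton_iff,
      not_or, not_exists, not_and] at hk
    obtain ⟨hk, hk0⟩ := hk
    refine ⟨f + g ^ k, (v.adicValuation.map_add _ _).trans (max_le hf ?_), fun ω hω => ?_⟩
    · rw [map_pow]; exact pow_le_one₀ zero_le hg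
    rw [map_add, map_pow]
    rcases Finset.mem_insert.mp hω with rfl | hωS
    · have hB : 1 < vL (φ ω g) ^ k := one_lt_pow₀ hg0 hk0
      have hne : vL (φ ω g) ^ k ≠ vL (φ ω f) :=
        hk ω (ne_zero_of_lt hg0) hg0.ne'
      rw [Valuation.map_add_of_distinct_val _ (by rw [map_pow]; exact hne.symm), map_pow]
      exact lt_of_lt_of_le hB (le_max_right _ _)
    · have hA := hfS ω hωS
      by_cases heq : vL (φ ω g) ^ k = vL (φ ω f)
      · exfalso
        refine hk ω ?_ ?_ heq
        · intro h0
          rw [h0, zero_pow hk0] at heq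
          exact (ne_zero_of_lt hA) heq.symm
        · intro h1
          rw [h1, one_pow] at heq
          exact hA.ne heq
      · rw [Valuation.map_add_of_distinct_val _ (by rw [map_pow]; exact Ne.symm heq)]
        exact lt_of_lt_of_le hA (le_max_left _ _)

/-- Every place over `a` is dominated by one of the embeddings. -/
lemma exists_embedding_of_place (hne : x - algebraMap K F a ≠ 0) (vL : Valuation L ℤᵐ⁰)
    (hKL : ∀ c : K, c ≠ 0 → vL (algebraMap K L c) = 1) (φ : Ω → (F →ₐ[K] L))
    (hφinj : Function.Injective φ)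
    (hcard : Fintype.card Ω = Module.finrank (IntermediateField.adjoin K {x}) F)
    (hx : ∀ ω ω', φ ω x = φ ω' x) (hφ : ∀ ω, vL (φ ω x - algebraMap K L a) < 1)
    (v : Place K F) (hv : v.adicValuation (x - algebraMap K F a) < 1) :
    ∃ ω, ∀ f, v.adicValuation f ≤ 1 → vL (φ ω f) ≤ 1 := by
  by_contra hcon
  simp only [not_exists, not_forall, not_le, exists_prop] at hcon
  obtain ⟨f, hf, hbig⟩ := exists_all_large vL φ v hcon
  obtain ⟨ω₀⟩ : Nonempty Ω := by
    rw [← Fintype.card_pos_iff, hcard]; exact Module.finrank_pos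
  have hf0 : f ≠ 0 := by
    rintro rfl
    simpa using hbig ω₀
  have hlt := small_of_forall_small x a hne vL hKL φ hφinj hcard hx hφ v hv (g := f⁻¹) fun ω => by
    rw [map_inv₀, map_inv₀]; exact inv_lt_one_of_one_lt₀ (hbig ω)
  rw [map_inv₀, inv_lt_one₀ (zero_lt_iff.mpr ((Valuation.ne_zero_iff _).mpr hf0))] at hlt
  exact (not_lt.mpr hf) hlt

omit [CharZero K] in
lemma adicValuation_lt_one_iff (v : Place K F) {f : F} (hf : f ≠ 0) :
    v.adicValuation f < 1 ↔ 0 < v.ord f := by
  rw [v.adicValuation_eq_exp_neg_ord hf, ← exp_zero, exp_lt_exp]; omega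

omit [CharZero K] in
lemma mem_of_adicValuation_le_one (v : Place K F) {f : F} (hf : v.adicValuation f ≤ 1) :
    f ∈ v.toValuationSubring := by
  rcases v.toValuationSubring.mem_or_inv_mem f with h | h
  · exact h
  rcases eq_or_ne f 0 with rfl | hf0
  · exact v.toValuationSubring.zero_mem
  have h1 : v.adicValuation f = 1 := by
    refine le_antisymm hf ?_
    have := v.adicValuation_le_one_of_mem h
    rw [map_inv₀] at this
    exact (inv_le_one₀ (zero_lt_iff.mpr ((Valuation.ne_zero_iff _).mpr hf0))).mp this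
  have hu : IsUnit (⟨f⁻¹, h⟩ : v.toValuationSubring) :=
    (v.adicValuation_coe_eq_one_iff _).mp (by simp [h1])
  obtain ⟨b, hb⟩ := hu.exists_right_inv
  have hb' : f⁻¹ * (b : F) = 1 := by
    simpa using congrArg Subtype.val hb
  rw [inv_mul_eq_one₀ hf0] at hb'
  exact hb' ▸ b.2

omit [CharZero K] in
/-- A compatible embedding scales orders by a constant. -/
lemma exists_ord_mul (v : Place K F) (vL : Valuation L ℤᵐ⁰) (φ : F →ₐ[K] L)
    (h : ∀ f, v.adicValuation f ≤ 1 → vL (φ f) ≤ 1) :
    ∃ π : F, π ≠ 0 ∧ ∀ f : F, f ≠ 0 → ordL vL (φ f) = v.ord f * ordL vL (φ π) := by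
  obtain ⟨π, hπ⟩ := IsDiscreteValuationRing.exists_irreducible v.toValuationSubring
  refine ⟨π, by simpa using hπ.ne_zero, fun f hf => ?_⟩
  obtain ⟨u, hu⟩ := v.exists_unit_mul_zpow hf hπ
  have hvu : v.adicValuation ((u : v.toValuationSubring) : F) = 1 :=
    (v.adicValuation_coe_eq_one_iff _).mpr u.isUnit
  set w : F := ((u : v.toValuationSubring) : F)
  have hw0 : w ≠ 0 := by
    rintro h0; rw [h0, map_zero] at hvu; exact zero_ne_one hvu
  have h1 := h w hvu.le
  have h2 := h w⁻¹ (by rw [map_inv₀, hvu, inv_one])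
  rw [map_inv₀, map_inv₀,
    inv_le_one₀ (zero_lt_iff.mpr ((Valuation.ne_zero_iff _).mpr ((_root_.map_ne_zero φ).mpr hw0)))] at h2
  have hφw : ordL vL (φ w) = 0 := by rw [ordL, le_antisymm h1 h2, log_one, neg_zero]
  conv_lhs => rw [hu, map_mul, map_zpow₀]
  rw [ordL_mul vL ((_root_.map_ne_zero φ).mpr hw0)
    (zpow_ne_zero _ ((_root_.map_ne_zero φ).mpr (by simpa using hπ.ne_zero))), hφw, ordL_zpow, zero_add]

omit [Fintype Ω] [CharZero K] in
lemma iterate_perm (s : Equiv.Perm Ω) (σ : L →+* L) (φ : Ω → (F →ₐ[K] L))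
    (hσ : ∀ ω f, φ (s ω) f = σ (φ ω f)) (ω : Ω) (f : F) (n : ℕ) :
    φ ((s^[n]) ω) f = σ^[n] (φ ω f) := by
  induction n with
  | zero => rfl
  | succ n ih => rw [Function.iterate_succ_apply', Function.iterate_succ_apply', hσ, ih]

/-- **Places over `a` correspond to orbits on the embeddings.**  Here `Z` is the set of places over
`a`, whose ramification indices sum to the number of embeddings `[F : K(x)]`. -/
theorem card_places_eq_card_orbits (hne : x - algebraMap K F a ≠ 0) (vL : Valuation L ℤᵐ⁰)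
    (hKL : ∀ c : K, c ≠ 0 → vL (algebraMap K L c) = 1) (φ : Ω → (F →ₐ[K] L))
    (hφinj : Function.Injective φ)
    (hcard : Fintype.card Ω = Module.finrank (IntermediateField.adjoin K {x}) F)
    (x₀ : L) (hx : ∀ ω, φ ω x = x₀) (e₀ : ℕ) (he₀ : e₀ ≠ 0)
    (hord : ordL vL (x₀ - algebraMap K L a) = e₀)
    (s : Equiv.Perm Ω) (σ : L →+* L) (hσ : ∀ ω f, φ (s ω) f = σ (φ ω f))
    (hσv : ∀ g : L, vL (σ g) = vL g)
    (hfix : ∀ (n : ℕ) (g : L), g ≠ 0 → σ^[n] g = g → (e₀ : ℤ) ∣ (n : ℤ) * ordL vL g)
    (Z : Finset (Place K F)) (hZ : ∀ v, v ∈ Z ↔ 0 < v.ord (x - algebraMap K F a))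
    (hsum : ∑ v ∈ Z, v.ord (x - algebraMap K F a) = Fintype.card Ω) :
    Z.card = Nat.card (MulAction.orbitRel.Quotient (Subgroup.zpowers s) Ω) := by
  classical
  have hφx : ∀ ω, φ ω (x - algebraMap K F a) = x₀ - algebraMap K L a := fun ω => by
    rw [map_sub, hx, AlgHom.commutes]
  have hφlt : ∀ ω, vL (φ ω x - algebraMap K L a) < 1 := fun ω => by
    have h0 : x₀ - algebraMap K L a ≠ 0 := by
      intro h0; rw [h0] at hord; simp [ordL] at hord; omega
    rw [hx, ← ordL_pos_iff vL h0, hord]; omega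
  have hcompat : ∀ v : Z, ∃ ω, ∀ f, (v : Place K F).adicValuation f ≤ 1 → vL (φ ω f) ≤ 1 :=
    fun v => exists_embedding_of_place x a hne vL hKL φ hφinj hcard
      (fun ω ω' => (hx ω).trans (hx ω').symm) hφlt v
      ((adicValuation_lt_one_iff v.1 hne).mpr ((hZ _).mp v.2))
  choose ω hω using hcompat
  have hm : ∀ (v : Z) (ω' : Ω), (∀ f, (v : Place K F).adicValuation f ≤ 1 → vL (φ ω' f) ≤ 1) →
      ∃ π : F, π ≠ 0 ∧ 0 < ordL vL (φ ω' π) ∧
        (e₀ : ℤ) = (v : Place K F).ord (x - algebraMap K F a) * ordL vL (φ ω' π) ∧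
        ∀ f : F, f ≠ 0 → ordL vL (φ ω' f) = (v : Place K F).ord f * ordL vL (φ ω' π) := by
    intro v ω' h
    obtain ⟨π, hπ0, hπ⟩ := exists_ord_mul v.1 vL (φ ω') h
    have he : (e₀ : ℤ) = (v : Place K F).ord (x - algebraMap K F a) * ordL vL (φ ω' π) := by
      rw [← hπ _ hne, hφx, hord]
    refine ⟨π, hπ0, ?_, he, hπ⟩
    have h1 : (0 : ℤ) < e₀ := by omega
    rw [he] at h1
    exact pos_of_mul_pos_right h1 ((hZ _).mp v.2).le
  -- ramification index divides the orbit length
  have hdvd : ∀ v : Z, (v : Place K F).ord (x - algebraMap K F a) ∣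
      (Function.minimalPeriod (s • ·) (ω v) : ℤ) := by
    intro v
    obtain ⟨π, hπ0, hpos, he, -⟩ := hm v (ω v) (hω v)
    have hper : σ^[Function.minimalPeriod (s • ·) (ω v)] (φ (ω v) π) = φ (ω v) π := by
      rw [← iterate_perm s σ φ hσ]
      exact congrArg (fun t => φ t π) (Function.iterate_minimalPeriod (f := (s • ·)) (x := ω v))
    have := hfix _ _ ((_root_.map_ne_zero _).mpr hπ0) hper
    rw [he] at this
    exact Int.dvd_of_mul_dvd_mul_right hpos.ne' this
  -- places with embeddings in the same orbit coincide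
  let orb : Z → MulAction.orbitRel.Quotient (Subgroup.zpowers s) Ω := fun v => Quotient.mk'' (ω v)
  have horbinj : Function.Injective orb := by
    intro v v' h
    obtain ⟨g, hg⟩ : ω v ∈ MulAction.orbit (Subgroup.zpowers s) (ω v') :=
      Quotient.eq''.mp h
    obtain ⟨k, hk⟩ : ∃ k : ℕ, (s^[k]) (ω v') = ω v := by
      have hgp : (g : Equiv.Perm Ω) ∈ Submonoid.powers s :=
        mem_powers_iff_mem_zpowers.mpr g.2
      obtain ⟨k, hk⟩ := Submonoid.mem_powers_iff _ _ |>.mp hgp
      refine ⟨k, ?_⟩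
      rw [← Equiv.Perm.coe_pow, hk]
      exact hg
    have hcompat' : ∀ f, (v' : Place K F).adicValuation f ≤ 1 → vL (φ (ω v) f) ≤ 1 := by
      intro f hf
      have hiter : ∀ (n : ℕ) (g : L), vL (σ^[n] g) = vL g := fun n g => by
        induction n with
        | zero => rfl
        | succ n ih => rw [Function.iterate_succ_apply', hσv, ih]
      rw [← hk, iterate_perm s σ φ hσ, hiter]
      exact hω v' f hf
    obtain ⟨π, -, hp, -, hπ⟩ := hm v (ω v) (hω v)
    obtain ⟨π', -, hp', -, hπ'⟩ := hm v' (ω v) hcompat'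
    apply Subtype.ext
    apply Place.ext
    ext f
    rcases eq_or_ne f 0 with rfl | hf0
    · simp
    have key : (0 ≤ (v : Place K F).ord f) ↔ (0 ≤ (v' : Place K F).ord f) := by
      have := (hπ f hf0).symm.trans (hπ' f hf0)
      constructor <;> intro h0 <;> by_contra hneg <;> nlinarith
    have hmem : ∀ w : Place K F, f ∈ w.toValuationSubring ↔ 0 ≤ w.ord f := fun w => by
      refine ⟨fun hf => ?_, fun hf => mem_of_adicValuation_le_one w ?_⟩
      · exact (w.adicValuation_le_one_iff.mp (w.adicValuation_le_one_of_mem hf)).resolve_left hf0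
      · exact w.adicValuation_le_one_iff.mpr (Or.inr hf)
    rw [hmem, hmem, key]
  have horbsurj : Function.Surjective orb := by
    have hq : ∑ q : MulAction.orbitRel.Quotient (Subgroup.zpowers s) Ω,
        (Fintype.card q.orbit : ℤ) = Fintype.card Ω := by
      rw [Fintype.card_congr (MulAction.selfEquivSigmaOrbits' (Subgroup.zpowers s) Ω),
        Fintype.card_sigma, Nat.cast_sum]
    have hle : ∀ v : Z, (v : Place K F).ord (x - algebraMap K F a) ≤
        (Fintype.card (orb v).orbit : ℤ) := by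
      intro v
      have hcard' : Fintype.card (orb v).orbit = Function.minimalPeriod (s • ·) (ω v) := by
        rw [MulAction.minimalPeriod_eq_card]
        exact Fintype.card_congr (Equiv.setCongr (MulAction.orbitRel.Quotient.orbit_mk (ω v)))
      rw [hcard']
      refine Int.le_of_dvd ?_ (hdvd v)
      rw [← hcard']
      have : Nonempty (orb v).orbit := ⟨⟨ω v, by simp [orb]⟩⟩
      exact_mod_cast Fintype.card_pos
    intro q
    by_contra hq'
    push Not at hq'
    have hlt : ∑ v : Z, (Fintype.card (orb v).orbit : ℤ)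
        < ∑ q : MulAction.orbitRel.Quotient (Subgroup.zpowers s) Ω, (Fintype.card q.orbit : ℤ) := by
      rw [← Finset.sum_image (f := fun q : MulAction.orbitRel.Quotient (Subgroup.zpowers s) Ω =>
        (Fintype.card q.orbit : ℤ)) horbinj.injOn]
      refine Finset.sum_lt_sum_of_subset (Finset.subset_univ _) (Finset.mem_univ q)
        (by simpa using hq') ?_ (fun _ _ _ => by positivity)
      obtain ⟨w, hw⟩ := Quotient.exists_rep q
      have : Nonempty q.orbit :=
        ⟨⟨w, by rw [MulAction.orbitRel.Quotient.mem_orbit]; exact hw⟩⟩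
      exact_mod_cast Fintype.card_pos
    have hsum' : ∑ v : Z, (v : Place K F).ord (x - algebraMap K F a) = (Fintype.card Ω : ℤ) := by
      rw [← hsum]; exact Finset.sum_coe_sort Z fun v : Place K F => v.ord (x - algebraMap K F a)
    have := Finset.sum_le_sum (s := Finset.univ) fun v (_ : v ∈ (Finset.univ : Finset Z)) => hle v
    omega
  rw [← Nat.card_eq_of_bijective orb ⟨horbinj, horbsurj⟩, Nat.card_eq_fintype_card,
    Fintype.card_coe]

end Fermat.Agent.Genus
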